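import Mathlib
import Fermat.Agent.H07.P2.Core
import Fermat.Agent.H07.Sel

/-!
# Selection in the Hesse pencil: curves with good supersingular reduction at 2, trace 0
-/

set_option autoImplicit false

namespace Fermat.Agent.H07.P2

open Fermat.Agent.H07.Sel

/-- invariants of an integral curve with good reduction at `2` and `c₄` even -/
lemma ss_shape (W : WeierstrassCurve ℤ) (h2 : ¬ (2 : ℤ) ∣ W.Δ) (hc : (2 : ℤ) ∣ W.c₄) :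
    ∃ c1 d1 : ℤ, W.c₄ = 16 * c1 ∧ W.c₆ = 8 * d1 ∧ d1 % 4 = 1 := by
  have h1 : (2 : ℤ) ∣ W.a₁ := by
    have h : (2 : ℤ) ∣ W.a₁ ^ 4 := by
      have e : W.a₁ ^ 4 = W.c₄ - 2 * (4 * W.a₁ ^ 2 * W.a₂ + 8 * W.a₂ ^ 2 - 12 * W.b₄) := by
        simp only [WeierstrassCurve.c₄, WeierstrassCurve.b₂]; ring
      rw [e]
      exact dvd_sub hc (dvd_mul_right _ _)
    exact Int.prime_two.dvd_of_dvd_pow h
  obtain ⟨k, hk⟩ := h1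
  have h3 : ¬ (2 : ℤ) ∣ W.a₃ := by
    rintro ⟨m, hm⟩
    apply h2
    refine ⟨-(2 * (k ^ 2 + W.a₂)) ^ 2 * 2 * W.b₈ - 4 * W.b₄ ^ 3 -
      27 * 2 * (m ^ 2 + W.a₆) * 2 * (2 * (m ^ 2 + W.a₆)) + 9 * 2 * (k ^ 2 + W.a₂) *
      W.b₄ * W.b₆, ?_⟩
    simp only [WeierstrassCurve.Δ, WeierstrassCurve.b₂, WeierstrassCurve.b₆, hk, hm]
    ring
  obtain ⟨m, hm⟩ : ∃ m, W.a₃ = 2 * m + 1 := ⟨W.a₃ / 2, by omega⟩
  refine ⟨(k ^ 2 + W.a₂) ^ 2 - 3 * (W.a₄ + k * W.a₃),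
    -8 * (k ^ 2 + W.a₂) ^ 3 + 36 * (k ^ 2 + W.a₂) * (W.a₄ + k * W.a₃) - 27 * W.b₆, ?_, ?_, ?_⟩
  · simp only [WeierstrassCurve.c₄, WeierstrassCurve.b₂, WeierstrassCurve.b₄, hk]; ring
  · simp only [WeierstrassCurve.c₆, WeierstrassCurve.b₂, WeierstrassCurve.b₄, hk]; ring
  · have e : -8 * (k ^ 2 + W.a₂) ^ 3 + 36 * (k ^ 2 + W.a₂) * (W.a₄ + k * W.a₃) - 27 * W.b₆ =
        4 * (-2 * (k ^ 2 + W.a₂) ^ 3 + 9 * (k ^ 2 + W.a₂) * (W.a₄ + k * W.a₃) -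
          27 * (m ^ 2 + m + W.a₆) - 7) + 1 := by
      simp only [WeierstrassCurve.b₆, hm]; ring
    rw [e]; omega

/-- the `2`-adic position `(8 : 1)` for curves with `32 ∣ c₄`, `2 ∤ Δ` -/
lemma two_C {c d D X Y c1 d1 : ℤ} (hD : ¬ (2 : ℤ) ∣ D) (hc : c = 32 * c1) (hd : d = 8 * d1)
    (hd1 : d1 % 4 = 1) (hX : (2 ^ 16 : ℤ) ∣ X - 8) (hY : (2 ^ 16 : ℤ) ∣ Y - 1) :
    TwoAt c d D X Y := by
  have := Fact.mk Nat.prime_two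
  have h1 := DF_congr (c := c) (d := d) hX hY
  have h3 := CF4_congr (c := c) (d := d) hX hY
  have h5 := CF6_congr (c := c) (d := d) hX hY
  obtain ⟨a1, ha1⟩ := h1
  obtain ⟨a3, ha3⟩ := h3
  obtain ⟨a5, ha5⟩ := h5
  have hd1odd : Odd d1 := ⟨2 * (d1 / 4), by omega⟩
  have hDF : DF c d X Y = 512 * (2 * (4 - 12 * c1 - 3 * c1 ^ 2 + 64 * a1) - d1) := by
    have : DF c d 8 1 = 512 * (8 - 24 * c1 - d1 - 6 * c1 ^ 2) := by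
      rw [hc, hd]; unfold DF; ring
    rw [this] at ha1
    linear_combination ha1
  have hC4 : CF4 c d X Y = 4 ^ 4 * (d1 ^ 2 + 2 * (256 * c1 + 32 * d1 + 768 * c1 ^ 2 +
      16 * c1 * d1 - 192 * c1 ^ 3 + 128 * a3)) := by
    have : CF4 c d 8 1 = 256 * (512 * c1 + 64 * d1 + 1536 * c1 ^ 2 + 32 * c1 * d1 -
      384 * c1 ^ 3 + d1 ^ 2) := by
      rw [hc, hd]; unfold CF4; ring
    rw [this] at ha3
    linear_combination ha3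
  have hC6 : CF6 c d X Y = 4 ^ 6 * (4 * (128 * d1 + 12288 * c1 ^ 2 + 960 * c1 * d1 +
      40 * d1 ^ 2 + 480 * c1 ^ 2 * d1 + 9216 * c1 ^ 4 - 12 * c1 * d1 ^ 2 + 144 * c1 ^ 3 * d1 +
      4 * a5) - d1 ^ 3) := by
    have : CF6 c d 8 1 = 4096 * (512 * d1 + 49152 * c1 ^ 2 + 3840 * c1 * d1 + 160 * d1 ^ 2 +
      1920 * c1 ^ 2 * d1 + (36864 * c1 ^ 4 - 48 * c1 * d1 ^ 2) + 576 * c1 ^ 3 * d1 - d1 ^ 3) := by
      rw [hc, hd]; unfold CF6; ring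
    rw [this] at ha5
    linear_combination ha5
  have hBodd : Odd (2 * (4 - 12 * c1 - 3 * c1 ^ 2 + 64 * a1) - d1) :=
    (even_two_mul _).sub_odd hd1odd
  have hCodd : Odd (d1 ^ 2 + 2 * (256 * c1 + 32 * d1 + 768 * c1 ^ 2 +
      16 * c1 * d1 - 192 * c1 ^ 3 + 128 * a3)) := hd1odd.pow.add_even (even_two_mul _)
  have hd3 : (d1 ^ 3) % 4 = 1 := by
    obtain ⟨k, hk⟩ : ∃ k, d1 = 4 * k + 1 := ⟨d1 / 4, by omega⟩
    have : d1 ^ 3 = 4 * (16 * k ^ 3 + 12 * k ^ 2 + 3 * k) + 1 := by rw [hk]; ring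
    rw [this]; omega
  generalize (2 * (4 - 12 * c1 - 3 * c1 ^ 2 + 64 * a1) - d1) = B at hDF hBodd
  generalize (d1 ^ 2 + 2 * (256 * c1 + 32 * d1 + 768 * c1 ^ 2 +
      16 * c1 * d1 - 192 * c1 ^ 3 + 128 * a3)) = c' at hC4 hCodd
  generalize (128 * d1 + 12288 * c1 ^ 2 + 960 * c1 * d1 +
      40 * d1 ^ 2 + 480 * c1 ^ 2 * d1 + 9216 * c1 ^ 4 - 12 * c1 * d1 ^ 2 + 144 * c1 ^ 3 * d1 +
      4 * a5) = d'' at hC6
  have hD0 : D ≠ 0 := by rintro rfl; exact hD (dvd_zero _)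
  have hB0 : B ≠ 0 := by rintro rfl; exact (Int.not_odd_iff_even.2 Even.zero) hBodd
  refine ⟨4, c', 4 * d'' - d1 ^ 3, 8 * D * B ^ 3, Or.inr rfl, hC4, hC6, ?_, ?_, ?_, ?_, ?_⟩
  · rw [hDF]; ring
  · rw [← even_iff_two_dvd, Int.not_even_iff_odd]; exact hCodd
  · omega
  · exact ⟨4 * D * B ^ 3, by ring⟩
  · have v1 : padicValInt 2 (B ^ 3) = 0 := val_zero (fun h => by
      have h' : Even (B ^ 3) := even_iff_two_dvd.2 (by exact_mod_cast h)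
      exact (Int.not_odd_iff_even.2 h') hBodd.pow)
    have v3 : padicValInt 2 8 = 3 := by
      rw [show (8 : ℤ) = ((2 ^ 3 : ℕ) : ℤ) by norm_num, padicValInt.of_nat]
      exact padicValNat.prime_pow 3
    have v4 : padicValInt 2 D = 0 := val_zero (by exact_mod_cast hD)
    rw [padicValInt.mul (mul_ne_zero (by norm_num) hD0) (pow_ne_zero _ hB0),
      padicValInt.mul (by norm_num) hD0, v1, v3, v4]
    decide

lemma c4_ne_zero (W : WeierstrassCurve ℤ) (hW : W.IsSemistableModel) :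
    W.c₄ ≠ 0 := by
  intro h
  have hu : W.Δ.natAbs = 1 := by
    by_contra hne
    obtain ⟨p, hp, hpd⟩ := Nat.exists_prime_and_dvd hne
    exact hW p hp (Int.natCast_dvd.2 hpd) (by rw [h]; exact dvd_zero _)
  have hrel := W.c_relation
  rw [h] at hrel
  have h2 : W.c₆ ^ 2 = 1728 := by
    rcases Int.natAbs_eq W.Δ with h' | h'
    · rw [hu] at h'
      rw [h'] at hrel
      push_cast at hrel
      nlinarith [sq_nonneg W.c₆]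
    · rw [hu] at h'
      rw [h'] at hrel
      push_cast at hrel
      linarith
  have h3 : W.c₆ < 42 := by nlinarith
  have h4 : -42 < W.c₆ := by nlinarith
  have h5 : W.c₆ ≤ 41 := by omega
  have h6 : -41 ≤ W.c₆ := by omega
  nlinarith

/-- **Selection for `a₂(W) = 0`**: a curve satisfying the hypotheses of Theorem Z. -/
theorem selection_zero (W : WeierstrassCurve ℤ) (hΔ : W.Δ ≠ 0) (hW : W.IsSemistableModel)
    (h2 : ¬ (2 : ℤ) ∣ W.Δ) (h32 : (32 : ℤ) ∣ W.c₄) :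
    ∃ W' : WeierstrassCurve ℤ, W'.Δ < 0 ∧ W'.IsSemistableModel ∧ (2 : ℤ) ∣ W'.Δ ∧
      (∀ ℓ : ℕ, ℓ.Prime → (ℓ : ℤ) ∣ W'.Δ → Odd (padicValInt ℓ W'.Δ)) ∧
      (∃ ℓ : ℕ, ℓ.Prime ∧ ℓ % 4 = 3 ∧ (ℓ : ℤ) ∣ W'.Δ) ∧
      ((3 : ℤ) ∣ W'.Δ → (3 : ℤ) ∣ W.Δ) ∧
      ∀ ℓ : ℕ, ℓ.Prime → W.IsGoodPrimeFor ℓ → W'.IsGoodPrimeFor ℓ → ℓ ≠ 3 →
        (3 : ℤ) ∣ (W'.apOfModel ℓ - W.apOfModel ℓ) := by
  obtain ⟨c0, d1, -, hd, hd1⟩ := ss_shape W h2 ((by norm_num : (2 : ℤ) ∣ 32).trans h32)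
  obtain ⟨c1, hc⟩ := h32
  obtain ⟨W', X, Y, u, hu, e4, e6, hDF, h1, h3, h4, h5, h6, h7⟩ :=
    core_gen W hΔ hW (c4_ne_zero W hW) 8 1 (by norm_num)
      (fun X Y hX hY => two_C h2 hc hd hd1 hX hY)
  refine ⟨W', h1, h3, h4, h5, h6, h7, ?_⟩
  intro ℓ hℓ hg hg' hℓ3
  have hℓ2 : ℓ ≠ 2 := by
    rintro rfl
    exact hg' (by exact_mod_cast h4)
  refine Fermat.Agent.H24.hesse_congr W W' X Y u ?_ ?_ ?_ ℓ hℓ hℓ2 hℓ3 hg hg'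
  · rintro ⟨rfl, rfl⟩
    exact hDF (by unfold DF; ring)
  · rw [mul_comm, ← e4]; rfl
  · rw [mul_comm, ← e6]; rfl

end Fermat.Agent.H07.P2
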