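import Mathlib
import Fermat.Agent.H07.P2.Zero

/-!
# Selection in the Hesse pencil: good supersingular reduction at 2
-/

set_option autoImplicit false

namespace Fermat.Agent.H07.P2

open Fermat.Agent.H07.Sel

/-- **Integral models** from `c₄, c₆` in the good supersingular case at `2`. -/
theorem exists_model_ss {c d D c1 d1 : ℤ} (h : c ^ 3 - d ^ 2 = 1728 * D) (hc : c = 16 * c1)
    (hd : d = 8 * d1) (hd1 : d1 % 4 = 1) (h3 : ¬ (3 : ℤ) ∣ c ∨ (27 : ℤ) ∣ d) :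
    ∃ W : WeierstrassCurve ℤ, W.c₄ = c ∧ W.c₆ = d ∧ W.Δ = D := by
  have h3' : ∃ b : ℤ, 3 ∣ b ^ 2 - c ∧ 27 ∣ b ^ 3 - 3 * b * c - 2 * d := by
    have hE : ((c : ZMod 27)) ^ 3 = (d : ZMod 27) ^ 2 := by
      have := congrArg (Int.cast : ℤ → ZMod 27) h
      push_cast at this
      have e : (1728 : ZMod 27) = 0 := by decide
      rw [e, zero_mul, sub_eq_zero] at this
      exact this
    by_cases hc3 : (3 : ℤ) ∣ c
    · rcases h3 with h3 | h3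
      · exact absurd hc3 h3
      · refine ⟨0, ?_, ?_⟩
        · rw [zero_pow (by norm_num), zero_sub, dvd_neg]; exact hc3
        · have e : (0 : ℤ) ^ 3 - 3 * 0 * c - 2 * d = -2 * d := by ring
          rw [e]
          exact Dvd.dvd.mul_left h3 _
    · have h18 : (c : ZMod 27) ^ 18 = 1 := by
        have hcop : IsCoprime (c : ℤ) ((27 : ℕ) : ℤ) := by
          have h1 : IsCoprime (c : ℤ) 3 :=
            ((Prime.coprime_iff_not_dvd Int.prime_three).mpr hc3).symm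
          have := h1.pow_right (n := 3)
          norm_num at this
          exact this
        have hu := (ZMod.coe_int_isUnit_iff_isCoprime c 27).mpr hcop.symm
        obtain ⟨u, hu⟩ := hu
        rw [← hu, ← Units.val_pow_eq_pow_val]
        have := ZMod.pow_totient u
        have ht : Nat.totient 27 = 18 := by decide
        rw [ht] at this
        rw [this]; rfl
      refine ⟨-(d * c ^ 17), ?_, ?_⟩
      · apply (by norm_num : (3 : ℤ) ∣ 27).trans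
        refine dvd_of_zmod (n := 27) ?_
        push_cast
        exact (aux27 hE h18).1
      · refine dvd_of_zmod (n := 27) ?_
        push_cast
        exact (aux27 hE h18).2
  obtain ⟨b3, q1, q2⟩ := h3'
  obtain ⟨β, hβ⟩ : ∃ β, β = 88 * b3 := ⟨_, rfl⟩
  obtain ⟨b, hb⟩ : ∃ b, b = 4 * β := ⟨_, rfl⟩
  have hb27 : (27 : ℤ) ∣ b - b3 := ⟨13 * b3, by rw [hb, hβ]; ring⟩
  have e3 : (3 : ℤ) ∣ b ^ 2 - c := by
    have : b ^ 2 - c = (b - b3) * (b + b3) + (b3 ^ 2 - c) := by ring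
    rw [this]
    exact dvd_add (Dvd.dvd.mul_right ((by norm_num : (3 : ℤ) ∣ 27).trans hb27) _) q1
  have e27 : (27 : ℤ) ∣ b ^ 3 - 3 * b * c - 2 * d := by
    have : b ^ 3 - 3 * b * c - 2 * d = (b - b3) * (b ^ 2 + b * b3 + b3 ^ 2 - 3 * c) +
      (b3 ^ 3 - 3 * b3 * c - 2 * d) := by ring
    rw [this]
    exact dvd_add (Dvd.dvd.mul_right hb27 _) q2
  -- `b₄ = 2 γ`
  obtain ⟨γ, hγ⟩ : (3 : ℤ) ∣ β ^ 2 - c1 := by
    have h1 : (3 : ℤ) ∣ 16 * (β ^ 2 - c1) := by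
      have e : 16 * (β ^ 2 - c1) = b ^ 2 - c := by rw [hb, hc]; ring
      rw [e]; exact e3
    rcases Int.prime_three.dvd_or_dvd h1 with h | h
    · norm_num at h
    · exact h
  obtain ⟨b6, hb6⟩ : (27 : ℤ) ∣ 4 * β ^ 3 - 12 * β * c1 - d1 := by
    have h1 : (27 : ℤ) ∣ 16 * (4 * β ^ 3 - 12 * β * c1 - d1) := by
      have e : 16 * (4 * β ^ 3 - 12 * β * c1 - d1) = b ^ 3 - 3 * b * c - 2 * d := by
        rw [hb, hc, hd]; ring
      rw [e]; exact e27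
    exact IsCoprime.dvd_of_dvd_mul_left (by norm_num : IsCoprime (27 : ℤ) 16) h1
  have hb6' : b6 % 4 = 1 := by
    have : 27 * b6 = 4 * (β ^ 3 - 3 * β * c1) - d1 := by linarith
    generalize (β ^ 3 - 3 * β * c1) = z at this
    omega
  obtain ⟨a6, ha6⟩ : ∃ a6, b6 = 4 * a6 + 1 := ⟨b6 / 4, by omega⟩
  have g4 : (⟨0, β, 1, γ, a6⟩ : WeierstrassCurve ℤ).c₄ = c := by
    simp only [WeierstrassCurve.c₄, WeierstrassCurve.b₂, WeierstrassCurve.b₄]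
    rw [hc]; linear_combination 16 * hγ
  have g6 : (⟨0, β, 1, γ, a6⟩ : WeierstrassCurve ℤ).c₆ = d := by
    simp only [WeierstrassCurve.c₆, WeierstrassCurve.b₂, WeierstrassCurve.b₄,
      WeierstrassCurve.b₆]
    rw [hd]
    rw [ha6] at hb6
    linear_combination 8 * hb6 - 96 * β * hγ
  refine ⟨⟨0, β, 1, γ, a6⟩, g4, g6, ?_⟩
  have h1 : (1728 : ℤ) * (⟨0, β, 1, γ, a6⟩ : WeierstrassCurve ℤ).Δ = 1728 * D := by
    rw [(⟨0, β, 1, γ, a6⟩ : WeierstrassCurve ℤ).c_relation, ← h, g4, g6]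
  exact mul_left_cancel₀ (by norm_num) h1

/-- the requirement at `2`: good supersingular reduction with `c₄ / 16` odd -/
def TwoSS (c d D X Y : ℤ) : Prop := ∃ u c1 d1 D' : ℤ, (u = 1 ∨ u = 4) ∧
  CF4 c d X Y = u ^ 4 * (16 * c1) ∧ CF6 c d X Y = u ^ 6 * (8 * d1) ∧
  D * DF c d X Y ^ 3 = u ^ 12 * D' ∧ ¬ (2 : ℤ) ∣ c1 ∧ d1 % 4 = 1 ∧ ¬ (2 : ℤ) ∣ D'

lemma ss_A {c d D X Y c0 d0 : ℤ} (hD : ¬ (2 : ℤ) ∣ D) (hc : c = 16 * c0) (hc0 : ¬ (2 : ℤ) ∣ c0)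
    (hd : d = 8 * d0) (hd0 : d0 % 4 = 1) (hX : (2 ^ 20 : ℤ) ∣ X - 1) (hY : (2 ^ 20 : ℤ) ∣ Y - 0) :
    TwoSS c d D X Y := by
  have h1 := DF_congr (c := c) (d := d) hX hY
  have h3 := CF4_congr (c := c) (d := d) hX hY
  have h5 := CF6_congr (c := c) (d := d) hX hY
  rw [DF_one] at h1
  rw [CF4_one] at h3
  rw [CF6_one] at h5
  obtain ⟨a1, ha1⟩ := h1
  obtain ⟨a3, ha3⟩ := h3
  obtain ⟨a5, ha5⟩ := h5
  refine ⟨1, c0 + 2 ^ 16 * a3, d0 + 2 ^ 17 * a5, D * DF c d X Y ^ 3, Or.inl rfl, ?_, ?_, by ring,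
    ?_, ?_, ?_⟩
  · rw [hc] at ha3 ⊢; linear_combination ha3
  · rw [hd] at ha5 ⊢; linear_combination ha5
  · omega
  · omega
  · intro h
    rcases Int.prime_two.dvd_or_dvd h with h | h
    · exact hD h
    · have := Int.prime_two.dvd_of_dvd_pow h
      omega

lemma ss_B {c d D X Y : ℤ} (hD : ¬ (2 : ℤ) ∣ D) (hE : c ^ 3 - d ^ 2 = 1728 * D)
    (hc : ¬ (2 : ℤ) ∣ c) (hd : d % 4 = 3) (hX : (2 ^ 20 : ℤ) ∣ X - (-d))
    (hY : (2 ^ 20 : ℤ) ∣ Y - c) : TwoSS c d D X Y := by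
  have h1 := DF_congr (c := c) (d := d) hX hY
  have h3 := CF4_congr (c := c) (d := d) hX hY
  have h5 := CF6_congr (c := c) (d := d) hX hY
  have e0 : -d = 0 - d := by ring
  rw [e0, DF_cusp, hE] at h1
  rw [e0, CF4_cusp, hE] at h3
  rw [e0, CF6_cusp, hE] at h5
  obtain ⟨a1, ha1⟩ := h1
  obtain ⟨a3, ha3⟩ := h3
  obtain ⟨a5, ha5⟩ := h5
  have hDo : Odd D := by rwa [← Int.not_even_iff_odd, even_iff_two_dvd]
  have hco : Odd c := by rwa [← Int.not_even_iff_odd, even_iff_two_dvd]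
  have hdo : Odd d := ⟨2 * (d / 4) + 1, by omega⟩
  obtain ⟨e, he⟩ : ∃ e, e = 27 * D := ⟨_, rfl⟩
  have heo : Odd e := by rw [he]; exact (by decide : Odd (27 : ℤ)).mul hDo
  have hDF : DF c d X Y = 256 * (-(e * d ^ 2) + 2 * (2 ^ 11 * a1 - 24 * e ^ 2)) := by
    rw [he]; linear_combination ha1
  have hC4 : CF4 c d X Y = 4 ^ 4 * (16 * (-(3 * c * e ^ 2) + 2 * (2 ^ 7 * a3))) := by
    rw [he]; linear_combination ha3
  have hC6 : CF6 c d X Y = 4 ^ 6 * (8 * (-(e ^ 2 * d ^ 3) + 4 * (8 * a5 - 18 * e ^ 3 * d))) := by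
    rw [he]; linear_combination ha5
  have hBo : Odd (-(e * d ^ 2) + 2 * (2 ^ 11 * a1 - 24 * e ^ 2)) :=
    ((heo.mul hdo.pow).neg).add_even (even_two_mul _)
  have hCo : Odd (-(3 * c * e ^ 2) + 2 * (2 ^ 7 * a3)) :=
    (((((by decide : Odd (3 : ℤ)).mul hco).mul heo.pow)).neg).add_even (even_two_mul _)
  have he2 : (e ^ 2 * d ^ 3) % 4 = 3 := by
    obtain ⟨k, hk⟩ := heo
    obtain ⟨m, hm⟩ : ∃ m, d = 4 * m + 3 := ⟨d / 4, by omega⟩
    have h2 : (e ^ 2 * d ^ 3) ≡ 1 * 3 ^ 3 [ZMOD 4] := by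
      apply Int.ModEq.mul
      · rw [hk]; exact (Int.modEq_iff_dvd.2 ⟨-(k ^ 2 + k), by ring⟩)
      · apply Int.ModEq.pow
        rw [hm]; exact (Int.modEq_iff_dvd.2 ⟨-m, by ring⟩)
    exact h2
  generalize (e ^ 2 * d ^ 3) = z at hC6 he2
  generalize (8 * a5 - 18 * e ^ 3 * d) = z' at hC6
  generalize (-(e * d ^ 2) + 2 * (2 ^ 11 * a1 - 24 * e ^ 2)) = B at hDF hBo
  generalize (-(3 * c * e ^ 2) + 2 * (2 ^ 7 * a3)) = c' at hC4 hCo
  refine ⟨4, c', -z + 4 * z', D * B ^ 3, Or.inr rfl, hC4, hC6, ?_, ?_, ?_, ?_⟩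
  · rw [hDF]; ring
  · rw [← even_iff_two_dvd, Int.not_even_iff_odd]; exact hCo
  · omega
  · rw [← even_iff_two_dvd, Int.not_even_iff_odd]; exact hDo.mul hBo.pow

/-- the member of the pencil with `j = 0` opposite to a root `t` of the quartic -/
lemma CF4_opp {R : Type*} [CommRing R] (c d t : R) :
    CF4 c d (-t ^ 3 + 5 * c * t + 4 * d) (t ^ 2 - c) = DF c d t 1 *
      (c * t ^ 8 - 4 * d * t ^ 7 - 8 * c ^ 2 * t ^ 6 + 28 * c * d * t ^ 5 + 30 * c ^ 3 * t ^ 4 +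
        20 * d ^ 2 * t ^ 4 - 44 * c ^ 2 * d * t ^ 3 - 56 * c ^ 4 * t ^ 2 -
        88 * c * d ^ 2 * t ^ 2 - 76 * c ^ 3 * d * t - 32 * d ^ 3 * t + c ^ 5 -
        28 * c ^ 2 * d ^ 2) := by
  unfold CF4 DF; ring

lemma opp_ne {c d t : ℤ} {r : ℕ} (hr : r.Prime) (h6 : ¬ (r : ℤ) ∣ 6 * (c ^ 3 - d ^ 2)) :
    ¬ ((r : ℤ) ∣ -t ^ 3 + 5 * c * t + 4 * d ∧ (r : ℤ) ∣ t ^ 2 - c) := by
  rintro ⟨h1, h2⟩
  have hp := Nat.prime_iff_prime_int.mp hr
  have h3 : (r : ℤ) ∣ 4 * (c * t + d) := by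
    have e : 4 * (c * t + d) = (-t ^ 3 + 5 * c * t + 4 * d) + t * (t ^ 2 - c) := by ring
    rw [e]; exact dvd_add h1 (Dvd.dvd.mul_left h2 _)
  have h4 : (r : ℤ) ∣ c * t + d := by
    rcases hp.dvd_or_dvd h3 with h | h
    · exfalso
      have h2' : (r : ℤ) ∣ 2 := hp.dvd_of_dvd_pow (n := 2) (h.trans (by norm_num))
      exact h6 (Dvd.dvd.mul_right (h2'.trans (by norm_num)) _)
    · exact h
  apply h6
  have e : 6 * (c ^ 3 - d ^ 2) = 6 * ((c * t + d) * (c * t - d) - c ^ 2 * (t ^ 2 - c)) := by ring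
  rw [e]
  exact Dvd.dvd.mul_left (dvd_sub (Dvd.dvd.mul_right h4 _) (Dvd.dvd.mul_left h2 _)) _

end Fermat.Agent.H07.P2
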