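import Mathlib
import Fermat.Agent.H07.P2.ModelSS

/-!
# Selection in the Hesse pencil: good reduction at 2, supersingular at an auxiliary prime
-/

set_option autoImplicit false

namespace Fermat.Agent.H07.P2

open Finset Fermat.Agent.H07.Sel

/-- coprime representatives: `X ≡ x`, `Y ≡ y mod M`, `Y ≠ 0`, and `X ≡ 1` modulo the primes of `Y`
that do not divide `M` -/
lemma exists_coprime {M : ℕ} (hM : 0 < M) (x y : ℤ) :
    ∃ X Y : ℤ, (M : ℤ) ∣ X - x ∧ (M : ℤ) ∣ Y - y ∧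
      ∀ l : ℕ, l.Prime → ¬ l ∣ M → (l : ℤ) ∣ Y → ¬ (l : ℤ) ∣ X := by
  obtain ⟨Y, hY⟩ : ∃ Y : ℤ, Y = y + M * (|y| + 1) := ⟨_, rfl⟩
  have hY0 : 0 < Y := by
    have h1 : -|y| ≤ y := neg_abs_le y
    have h2 : (1 : ℤ) ≤ M := by exact_mod_cast hM
    have h3 : 0 ≤ |y| := abs_nonneg y
    rw [hY]; nlinarith
  let T : Finset ℕ := Y.natAbs.primeFactors.filter (fun l => ¬ l ∣ M)
  let N : ℕ := ∏ l ∈ T, l
  have hTp : ∀ l ∈ T, l.Prime := fun l hl => Nat.prime_of_mem_primeFactors (mem_filter.1 hl).1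
  have hcop : Nat.Coprime M N := by
    apply Nat.Coprime.prod_right
    intro l hl
    exact ((Nat.Prime.coprime_iff_not_dvd (hTp l hl)).2 (mem_filter.1 hl).2).symm
  have hcz : IsCoprime (M : ℤ) (N : ℤ) := Nat.isCoprime_iff_coprime.2 hcop
  obtain ⟨a, b, hab⟩ := hcz
  refine ⟨x + M * (a * (1 - x)), Y, ⟨a * (1 - x), by ring⟩, ⟨|y| + 1, by rw [hY]; ring⟩, ?_⟩
  intro l hl hlM hlY hlX
  have hlT : l ∈ T := mem_filter.2 ⟨Nat.mem_primeFactors.2 ⟨hl, Int.natCast_dvd.1 hlY,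
    Int.natAbs_ne_zero.2 hY0.ne'⟩, hlM⟩
  have hlN : (l : ℤ) ∣ (N : ℤ) := Int.natCast_dvd_natCast.2 (Finset.dvd_prod_of_mem _ hlT)
  have h1 : (l : ℤ) ∣ 1 := by
    have e : (1 : ℤ) = (x + M * (a * (1 - x))) + (b * (1 - x)) * N := by
      linear_combination (1 - x) * (-hab)
    rw [e]
    exact dvd_add hlX (Dvd.dvd.mul_left hlN _)
  exact (Nat.prime_iff_prime_int.mp hl).not_isUnit (isUnit_of_dvd_one h1)

/-- **The selection with good supersingular reduction at `2`.** -/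
theorem good_core (W : WeierstrassCurve ℤ) (hΔ : W.Δ ≠ 0) (hW : W.IsSemistableModel)
    (a₂ b₂ : ℤ) (hab : ¬ ((2 : ℤ) ∣ a₂ ∧ (2 : ℤ) ∣ b₂))
    (htwo : ∀ X Y : ℤ, (2 ^ 20 : ℤ) ∣ X - a₂ → (2 ^ 20 : ℤ) ∣ Y - b₂ →
      TwoSS W.c₄ W.c₆ W.Δ X Y) (r : ℕ) (hr : r.Prime) (hr2 : r ≠ 2) (hr3 : r ≠ 3)
    (hrΔ : ¬ (r : ℤ) ∣ W.Δ) (θ : ℤ) (hθ : (r : ℤ) ∣ DF W.c₄ W.c₆ θ 1) :
    ∃ (W' : WeierstrassCurve ℤ) (X Y u : ℤ), (u = 1 ∨ u = 4) ∧
      CF4 W.c₄ W.c₆ X Y = u ^ 4 * W'.c₄ ∧ CF6 W.c₄ W.c₆ X Y = u ^ 6 * W'.c₆ ∧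
      ¬ (X = 0 ∧ Y = 0) ∧ W'.Δ ≠ 0 ∧ W'.IsSemistableModel ∧ ¬ (2 : ℤ) ∣ W'.Δ ∧
      (16 : ℤ) ∣ W'.c₄ ∧ ¬ (32 : ℤ) ∣ W'.c₄ ∧ ((3 : ℤ) ∣ W'.Δ → (3 : ℤ) ∣ W.Δ) ∧
      (r : ℤ) ∣ W'.c₄ ∧ ¬ (r : ℤ) ∣ W'.Δ := by
  classical
  have hE : W.c₄ ^ 3 - W.c₆ ^ 2 = 1728 * W.Δ := W.c_relation.symm
  have hc6 : (3 : ℤ) ∣ W.c₄ → (27 : ℤ) ∣ W.c₆ := c6_three W
  have hss : ∀ p : ℕ, p.Prime → (p : ℤ) ∣ W.Δ → ¬ (p : ℤ) ∣ W.c₄ := hW
  generalize W.c₄ = c at *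
  generalize W.c₆ = d at *
  generalize W.Δ = D at *
  have hr' := Nat.prime_iff_prime_int.mp hr
  have hprime_ne : ∀ p q : ℕ, p.Prime → q.Prime → p ≠ q → ∀ k : ℕ, ¬ (p : ℤ) ∣ (q : ℤ) ^ k := by
    intro p q hp hq hne k h
    have h1 := (Nat.prime_iff_prime_int.mp hp).dvd_of_dvd_pow h
    have h2 : p ∣ q := by exact_mod_cast h1
    exact hne ((Nat.prime_dvd_prime_iff_eq hp hq).1 h2)
  have h6E : (6 : ℤ) * (1728 * D) = (2 : ℕ) ^ 7 * (3 : ℕ) ^ 4 * D := by push_cast; ring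
  have hr6 : ¬ (r : ℤ) ∣ 6 * (c ^ 3 - d ^ 2) := by
    rw [hE, h6E]
    intro h
    rcases hr'.dvd_or_dvd h with h | h
    · rcases hr'.dvd_or_dvd h with h | h
      · exact hprime_ne r 2 hr Nat.prime_two hr2 7 h
      · exact hprime_ne r 3 hr Nat.prime_three hr3 4 h
    · exact hrΔ h
  obtain ⟨xr, hxr⟩ : ∃ xr, xr = -θ ^ 3 + 5 * c * θ + 4 * d := ⟨_, rfl⟩
  obtain ⟨yr, hyr⟩ : ∃ yr, yr = θ ^ 2 - c := ⟨_, rfl⟩
  have hxyr : ¬ ((r : ℤ) ∣ xr ∧ (r : ℤ) ∣ yr) := by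
    rw [hxr, hyr]; exact opp_ne hr hr6
  have hC4r : (r : ℤ) ∣ CF4 c d xr yr := by
    rw [hxr, hyr, CF4_opp]; exact Dvd.dvd.mul_right hθ _
  -- the primes
  let S : Finset ℕ := (210 * D.natAbs * r).primeFactors
  have hn0 : 210 * D.natAbs * r ≠ 0 := by
    have := Int.natAbs_ne_zero.2 hΔ
    have := hr.ne_zero
    positivity
  have hSp : ∀ p ∈ S, p.Prime := fun p hp => Nat.prime_of_mem_primeFactors hp
  have hS210 : ∀ p : ℕ, p.Prime → p ∣ 210 → p ∈ S := fun p hp h =>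
    Nat.mem_primeFactors.2 ⟨hp, Dvd.dvd.mul_right (Dvd.dvd.mul_right h _) _, hn0⟩
  have hSD : ∀ p : ℕ, p.Prime → (p : ℤ) ∣ D → p ∈ S := fun p hp h =>
    Nat.mem_primeFactors.2 ⟨hp, Dvd.dvd.mul_right (Dvd.dvd.mul_left (Int.natCast_dvd.1 h) _) _, hn0⟩
  have hSr : r ∈ S := Nat.mem_primeFactors.2 ⟨hr, dvd_mul_left _ _, hn0⟩
  let M : ℕ := ∏ p ∈ S, p ^ 20
  have hM : 0 < M := Finset.prod_pos (fun p hp => pow_pos (hSp p hp).pos _)
  have hMS : ∀ p ∈ S, (p : ℤ) ^ 20 ∣ (M : ℤ) := by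
    intro p hp
    have : p ^ 20 ∣ M := Finset.dvd_prod_of_mem (fun p => p ^ 20) hp
    exact_mod_cast Int.natCast_dvd_natCast.2 this
  have hMp : ∀ l : ℕ, l.Prime → l ∣ M → l ∈ S := by
    intro l hl h
    obtain ⟨p, hp, hlp⟩ := (Prime.dvd_finsetProd_iff hl.prime _).1 h
    have := (Nat.prime_dvd_prime_iff_eq hl (hSp p hp)).1 (hl.dvd_of_dvd_pow hlp)
    rwa [this]
  -- residues
  let ax : ℕ → ℤ := fun p => if p = 2 then a₂ else if p = r then xr else 1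
  let ay : ℕ → ℤ := fun p => if p = 2 then b₂ else if p = r then yr else 0
  obtain ⟨x, hx⟩ := exists_crt S hSp 20 ax
  obtain ⟨y, hy⟩ := exists_crt S hSp 20 ay
  obtain ⟨X, Y, hX, hY, hcopXY⟩ := exists_coprime hM x y
  have hXp : ∀ p ∈ S, (p : ℤ) ^ 20 ∣ X - ax p := by
    intro p hp
    have e : X - ax p = (X - x) + (x - ax p) := by ring
    rw [e]; exact dvd_add ((hMS p hp).trans hX) (hx p hp)
  have hYp : ∀ p ∈ S, (p : ℤ) ^ 20 ∣ Y - ay p := by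
    intro p hp
    have e : Y - ay p = (Y - y) + (y - ay p) := by ring
    rw [e]; exact dvd_add ((hMS p hp).trans hY) (hy p hp)
  -- the prime 2
  have h2S := hS210 2 Nat.prime_two (by norm_num)
  have hX2 : (2 ^ 20 : ℤ) ∣ X - a₂ := by
    have g := hXp 2 h2S
    simp only [ax, if_true] at g
    exact_mod_cast g
  have hY2 : (2 ^ 20 : ℤ) ∣ Y - b₂ := by
    have g := hYp 2 h2S
    simp only [ay, if_true] at g
    exact_mod_cast g
  obtain ⟨u, c1, d1, D', hu, e4, e6, eD, hc1, hd1, hD'⟩ := htwo X Y hX2 hY2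
  have hD'0 : D' ≠ 0 := by rintro rfl; exact hD' (dvd_zero _)
  have hu0 : u ≠ 0 := by rcases hu with rfl | rfl <;> norm_num
  have hDF0 : DF c d X Y ≠ 0 := by
    intro h
    rw [h] at eD
    have : u ^ 12 * D' = 0 := by rw [← eD]; ring
    rcases mul_eq_zero.1 this with h | h
    · exact hu0 ((pow_eq_zero_iff (by norm_num)).1 h)
    · exact hD'0 h
  have hXY0 : ¬ (X = 0 ∧ Y = 0) := by
    rintro ⟨rfl, rfl⟩
    exact hDF0 (by unfold DF; ring)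
  have hun : ∀ p : ℕ, p.Prime → p ≠ 2 → ¬ (p : ℤ) ∣ u := by
    intro p hp hp2 h
    have hp' := Nat.prime_iff_prime_int.mp hp
    rcases hu with rfl | rfl
    · exact hp'.not_isUnit (isUnit_of_dvd_one h)
    · exact hprime_ne p 2 hp Nat.prime_two hp2 2 (by push_cast; exact h.trans (by norm_num))
  have hrel : (16 * c1) ^ 3 - (8 * d1) ^ 2 = 1728 * D' := by
    have h := CF_rel c d X Y
    rw [hE, e4, e6] at h
    have : u ^ 12 * ((16 * c1) ^ 3 - (8 * d1) ^ 2) = u ^ 12 * (1728 * D') := by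
      linear_combination h + 1728 * eD
    exact mul_left_cancel₀ (pow_ne_zero _ hu0) this
  -- primes of `S` other than `2`, `r`
  have hgen : ∀ p ∈ S, p ≠ 2 → p ≠ r → (p : ℤ) ^ 20 ∣ DF c d X Y - 1 ∧
      (p : ℤ) ^ 20 ∣ CF4 c d X Y - c ∧ (p : ℤ) ^ 20 ∣ CF6 c d X Y - d := by
    intro p hp hp2 hpr
    have g1 := hXp p hp
    have g2 := hYp p hp
    simp only [ax, ay, hp2, hpr, if_false] at g1 g2
    have k1 := DF_congr (c := c) (d := d) g1 g2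
    have k2 := CF4_congr (c := c) (d := d) g1 g2
    have k3 := CF6_congr (c := c) (d := d) g1 g2
    rw [DF_one] at k1
    rw [CF4_one] at k2
    rw [CF6_one] at k3
    exact ⟨k1, k2, k3⟩
  have hDFu : ∀ p ∈ S, p ≠ 2 → p ≠ r → ¬ (p : ℤ) ∣ DF c d X Y := by
    intro p hp hp2 hpr h
    have k := (dvd_pow_self (p : ℤ) (by norm_num : (20 : ℕ) ≠ 0)).trans (hgen p hp hp2 hpr).1
    have : (p : ℤ) ∣ 1 := by
      have e : (1 : ℤ) = DF c d X Y - (DF c d X Y - 1) := by ring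
      rw [e]; exact dvd_sub h k
    exact (Nat.prime_iff_prime_int.mp (hSp p hp)).not_isUnit (isUnit_of_dvd_one this)
  -- the prime `r`
  have hrX : (r : ℤ) ∣ X - xr := by
    have g := hXp r hSr
    simp only [ax, hr2, if_true, if_false] at g
    exact (dvd_pow_self _ (by norm_num)).trans g
  have hrY : (r : ℤ) ∣ Y - yr := by
    have g := hYp r hSr
    simp only [ay, hr2, if_true, if_false] at g
    exact (dvd_pow_self _ (by norm_num)).trans g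
  have hrC4 : (r : ℤ) ∣ CF4 c d X Y := by
    have e : CF4 c d X Y = (CF4 c d X Y - CF4 c d xr yr) + CF4 c d xr yr := by ring
    rw [e]; exact dvd_add (CF4_congr hrX hrY) hC4r
  have hrXY : ¬ ((r : ℤ) ∣ X ∧ (r : ℤ) ∣ Y) := by
    rintro ⟨h1, h2⟩
    apply hxyr
    constructor
    · have e : xr = X - (X - xr) := by ring
      rw [e]; exact dvd_sub h1 hrX
    · have e : yr = Y - (Y - yr) := by ring
      rw [e]; exact dvd_sub h2 hrY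
  have hrDF : ¬ (r : ℤ) ∣ DF c d X Y := by
    intro h
    by_cases hy : (r : ℤ) ∣ Y
    · exact hrXY ⟨dvd_X hr h hy, hy⟩
    · exact not_dvd_CF4 hr hr6 h hy hrC4
  have hrD' : ¬ (r : ℤ) ∣ D' := by
    intro h
    have h1 : (r : ℤ) ∣ D * DF c d X Y ^ 3 := by rw [eD]; exact Dvd.dvd.mul_left h _
    rcases hr'.dvd_or_dvd h1 with h | h
    · exact hrΔ h
    · exact hrDF (hr'.dvd_of_dvd_pow h)
  have hrc' : (r : ℤ) ∣ 16 * c1 := by
    rw [e4] at hrC4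
    rcases hr'.dvd_or_dvd hrC4 with h | h
    · exact absurd (hr'.dvd_of_dvd_pow h) (hun r hr hr2)
    · exact h
  -- the prime 3
  have h3S := hS210 3 Nat.prime_three (by norm_num)
  have h3g := hgen 3 h3S (by norm_num) (Ne.symm hr3)
  have h3' : ¬ (3 : ℤ) ∣ 16 * c1 ∨ (27 : ℤ) ∣ 8 * d1 := by
    have k4 : (3 : ℤ) ∣ CF4 c d X Y - c := by
      have := h3g.2.1; push_cast at this
      exact (by norm_num : (3 : ℤ) ∣ 3 ^ 20).trans this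
    have k6 : (27 : ℤ) ∣ CF6 c d X Y - d := by
      have := h3g.2.2; push_cast at this
      exact (by norm_num : (27 : ℤ) ∣ 3 ^ 20).trans this
    by_cases h3c : (3 : ℤ) ∣ c
    · right
      have e : CF6 c d X Y = (CF6 c d X Y - d) + d := by ring
      have h : (27 : ℤ) ∣ CF6 c d X Y := by rw [e]; exact dvd_add k6 (hc6 h3c)
      rw [e6] at h
      have hcop : IsCoprime (27 : ℤ) (u ^ 6) := by
        have h1 : IsCoprime (3 : ℤ) u := by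
          rw [Prime.coprime_iff_not_dvd Int.prime_three]
          exact_mod_cast hun 3 Nat.prime_three (by norm_num)
        have h2 : IsCoprime ((3 : ℤ) ^ 3) (u ^ 6) := h1.pow
        norm_num at h2
        exact h2
      exact hcop.dvd_of_dvd_mul_left h
    · left
      intro h'
      apply h3c
      have h : (3 : ℤ) ∣ CF4 c d X Y := by rw [e4]; exact Dvd.dvd.mul_left h' _
      have e : c = CF4 c d X Y - (CF4 c d X Y - c) := by ring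
      rw [e]; exact dvd_sub h k4
  obtain ⟨W', hW4, hW6, hWD⟩ := exists_model_ss hrel rfl rfl hd1 h3'
  refine ⟨W', X, Y, u, hu, by rw [hW4]; exact e4, by rw [hW6]; exact e6, hXY0,
    by rw [hWD]; exact hD'0, ?_, by rw [hWD]; exact hD', ?_, ?_, ?_, ?_, by rw [hWD]; exact hrD'⟩
  · intro p hp hpD
    rw [hWD] at hpD
    rw [hW4]
    have hp' := Nat.prime_iff_prime_int.mp hp
    have hp2 : p ≠ 2 := by rintro rfl; exact hD' (by exact_mod_cast hpD)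
    have hpr : p ≠ r := by rintro rfl; exact hrD' hpD
    have h1 : (p : ℤ) ∣ D * DF c d X Y ^ 3 := by rw [eD]; exact Dvd.dvd.mul_left hpD _
    have key : ¬ (p : ℤ) ∣ CF4 c d X Y := by
      by_cases hpS : p ∈ S
      · have hpc : (p : ℤ) ∣ D := by
          rcases hp'.dvd_or_dvd h1 with h | h
          · exact h
          · exact absurd (hp'.dvd_of_dvd_pow h) (hDFu p hpS hp2 hpr)
        intro h
        apply hss p hp hpc
        have k := (dvd_pow_self (p : ℤ) (by norm_num : (20 : ℕ) ≠ 0)).trans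
          (hgen p hpS hp2 hpr).2.1
        have e : c = CF4 c d X Y - (CF4 c d X Y - c) := by ring
        rw [e]; exact dvd_sub h k
      · have hpD0 : ¬ (p : ℤ) ∣ D := fun h => hpS (hSD p hp h)
        have hpF : (p : ℤ) ∣ DF c d X Y := by
          rcases hp'.dvd_or_dvd h1 with h | h
          · exact absurd h hpD0
          · exact hp'.dvd_of_dvd_pow h
        have hpM : ¬ p ∣ M := fun h => hpS (hMp p hp h)
        have hp6 : ¬ (p : ℤ) ∣ 6 * (c ^ 3 - d ^ 2) := by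
          rw [hE, h6E]
          intro h
          rcases hp'.dvd_or_dvd h with h | h
          · rcases hp'.dvd_or_dvd h with h | h
            · exact hprime_ne p 2 hp Nat.prime_two hp2 7 h
            · refine hprime_ne p 3 hp Nat.prime_three ?_ 4 h
              rintro rfl; exact hpS h3S
          · exact hpD0 h
        by_cases hy : (p : ℤ) ∣ Y
        · exact absurd (dvd_X hp hpF hy) (hcopXY p hp hpM hy)
        · exact not_dvd_CF4 hp hp6 hpF hy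
    intro h
    apply key
    rw [e4]; exact Dvd.dvd.mul_left h _
  · rw [hW4]; exact dvd_mul_right _ _
  · rw [hW4]; omega
  · intro h
    rw [hWD] at h
    have h1 : (3 : ℤ) ∣ D * DF c d X Y ^ 3 := by rw [eD]; exact Dvd.dvd.mul_left h _
    rcases Int.prime_three.dvd_or_dvd h1 with h | h
    · exact h
    · exact absurd (by exact_mod_cast Int.prime_three.dvd_of_dvd_pow h)
        (hDFu 3 h3S (by norm_num) (Ne.symm hr3))
  · rw [hW4]; exact hrc'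

/-- the `2`-adic position, in all cases with `32 ∤ c₄` -/
theorem exists_position (W : WeierstrassCurve ℤ) (h2 : ¬ (2 : ℤ) ∣ W.Δ)
    (h32 : ¬ (32 : ℤ) ∣ W.c₄) : ∃ a₂ b₂ : ℤ, ¬ ((2 : ℤ) ∣ a₂ ∧ (2 : ℤ) ∣ b₂) ∧
      ∀ X Y : ℤ, (2 ^ 20 : ℤ) ∣ X - a₂ → (2 ^ 20 : ℤ) ∣ Y - b₂ → TwoSS W.c₄ W.c₆ W.Δ X Y := by
  by_cases hc : (2 : ℤ) ∣ W.c₄
  · obtain ⟨c0, d0, h4, h6, hd0⟩ := ss_shape W h2 hc
    refine ⟨1, 0, by norm_num, fun X Y hX hY => ss_A h2 h4 ?_ h6 hd0 hX hY⟩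
    rintro ⟨k, rfl⟩
    exact h32 ⟨k, by rw [h4]; ring⟩
  · refine ⟨-W.c₆, W.c₄, fun h => hc h.2, fun X Y hX hY =>
      ss_B h2 W.c_relation.symm hc (c6_mod_four W hc) hX hY⟩

/-- **Selection at `3` (good at `2`), algebraic form.** -/
theorem selection_good (W : WeierstrassCurve ℤ) (hΔ : W.Δ ≠ 0) (hW : W.IsSemistableModel)
    (h2 : ¬ (2 : ℤ) ∣ W.Δ) (h32 : ¬ (32 : ℤ) ∣ W.c₄) (r : ℕ) (hr : r.Prime) (hr2 : r ≠ 2)
    (hr3 : r ≠ 3) (hrΔ : ¬ (r : ℤ) ∣ W.Δ) (θ : ℤ) (hθ : (r : ℤ) ∣ DF W.c₄ W.c₆ θ 1) :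
    ∃ W' : WeierstrassCurve ℤ, W'.Δ ≠ 0 ∧ W'.IsSemistableModel ∧ ¬ (2 : ℤ) ∣ W'.Δ ∧
      (16 : ℤ) ∣ W'.c₄ ∧ ¬ (32 : ℤ) ∣ W'.c₄ ∧ ((3 : ℤ) ∣ W'.Δ → (3 : ℤ) ∣ W.Δ) ∧
      (r : ℤ) ∣ W'.c₄ ∧ ¬ (r : ℤ) ∣ W'.Δ ∧
      ∀ ℓ : ℕ, ℓ.Prime → ℓ ≠ 2 → ℓ ≠ 3 → W.IsGoodPrimeFor ℓ → W'.IsGoodPrimeFor ℓ →
        (3 : ℤ) ∣ (W'.apOfModel ℓ - W.apOfModel ℓ) := by
  obtain ⟨a₂, b₂, hab, htwo⟩ := exists_position W h2 h32
  obtain ⟨W', X, Y, u, hu, e4, e6, hXY, h1, h3, h4, h5, h6, h7, h8, h9⟩ :=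
    good_core W hΔ hW a₂ b₂ hab htwo r hr hr2 hr3 hrΔ θ hθ
  refine ⟨W', h1, h3, h4, h5, h6, h7, h8, h9, ?_⟩
  intro ℓ hℓ hℓ2 hℓ3 hg hg'
  refine Fermat.Agent.H24.hesse_congr W W' X Y u hXY ?_ ?_ ℓ hℓ hℓ2 hℓ3 hg hg'
  · rw [mul_comm, ← e4]; rfl
  · rw [mul_comm, ← e6]; rfl

end Fermat.Agent.H07.P2
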