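import Mathlib
import Fermat.Agent.H07.P2.Good
import Fermat.Agent.H28N.TraceTwo
import Fermat.Agent.H16.P2.TraceThree
import Fermat.Agent.ZK.Irr5

/-!
# Selection at 3, good reduction at 2
-/

set_option autoImplicit false

namespace Fermat.Agent.H07.P2

open Fermat.Agent.H07.Sel WeierstrassCurve

/-- a root of the quartic modulo `r` from `3 ∣ a_r` -/
lemma exists_theta (W : WeierstrassCurve ℤ) {r : ℕ} (hr : r.Prime) (h3 : r % 3 = 2)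
    (ht : (3 : ℤ) ∣ W.apOfModel r) : ∃ θ : ℤ, (r : ℤ) ∣ DF W.c₄ W.c₆ θ 1 := by
  have := Fact.mk hr
  obtain ⟨z, hz⟩ := H16.P2.exists_root_of_three_dvd_trace h3 (W.reductionMod r) ht
  refine ⟨z.val, ?_⟩
  rw [← ZMod.intCast_zmod_eq_zero_iff_dvd]
  have h4 : (W.reductionMod r).c₄ = ((W.c₄ : ℤ) : ZMod r) := by
    rw [reductionMod, WeierstrassCurve.map_c₄]; rfl
  have h6 : (W.reductionMod r).c₆ = ((W.c₆ : ℤ) : ZMod r) := by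
    rw [reductionMod, WeierstrassCurve.map_c₆]; rfl
  rw [h4, h6] at hz
  rw [← hz]
  unfold DF
  push_cast
  rw [ZMod.natCast_zmod_val]
  ring

/-- `a_r = 0` if `c₄ = 0 mod r` -/
lemma ap_zero (W : WeierstrassCurve ℤ) {r : ℕ} (hr : r.Prime) (h3 : r % 3 = 2) (h2 : r ≠ 2)
    (hc : (r : ℤ) ∣ W.c₄) (hΔ : ¬ (r : ℤ) ∣ W.Δ) : W.apOfModel r = 0 := by
  have := Fact.mk hr
  have h5 : 5 ≤ r := by
    have := hr.two_le
    by_contra h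
    push Not at h
    interval_cases r
    · exact h2 rfl
    · omega
    · exact absurd hr (by decide)
  refine H16.P2.trace_zero_of_c4 h3 h5 (W.reductionMod r) ?_ ?_
  · rw [reductionMod, WeierstrassCurve.map_Δ, eq_intCast, Ne, ZMod.intCast_zmod_eq_zero_iff_dvd]
    exact hΔ
  · rw [reductionMod, WeierstrassCurve.map_c₄, eq_intCast, ZMod.intCast_zmod_eq_zero_iff_dvd]
    exact hc

/-- **Selection at `3`, good at `2`**, from the auxiliary prime `r`. -/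
theorem selB_of (W : WeierstrassCurve ℤ) (hΔ : W.Δ ≠ 0) (hW : W.IsSemistableModel)
    (h2 : ¬ (2 : ℤ) ∣ W.Δ) (h3 : ¬ (3 : ℤ) ∣ W.apOfModel 2) {r : ℕ} (hr : r.Prime) (hr2 : r ≠ 2)
    (hr3 : r % 3 = 2) (hr5 : r % 5 = 2 ∨ r % 5 = 3) (hrΔ : ¬ (r : ℤ) ∣ W.Δ)
    (hra : (3 : ℤ) ∣ W.apOfModel r) :
    ∃ W' : WeierstrassCurve ℤ, W'.Δ ≠ 0 ∧ W'.IsSemistableModel ∧ ¬ (2 : ℤ) ∣ W'.Δ ∧
      (W'.apOfModel 2 = 2 ∨ W'.apOfModel 2 = -2) ∧ W'.ModRepIsIrreducible 5 ∧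
      ((3 : ℤ) ∣ W'.Δ → (3 : ℤ) ∣ W.Δ) ∧
      ∀ ℓ : ℕ, ℓ.Prime → ℓ ≠ 2 → ℓ ≠ 3 → W.IsGoodPrimeFor ℓ → W'.IsGoodPrimeFor ℓ →
        (3 : ℤ) ∣ (W'.apOfModel ℓ - W.apOfModel ℓ) := by
  have h32 : ¬ (32 : ℤ) ∣ W.c₄ := fun h => h3 ((H28N.three_dvd_apOfModel_two h2).2 h)
  obtain ⟨θ, hθ⟩ := exists_theta W hr hr3 hra
  obtain ⟨W', a1, a2, a3, a4, a5, a6, a7, a8, a9⟩ := selection_good W hΔ hW h2 h32 r hr hr2
    (by rintro rfl; omega) hrΔ θ hθ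
  refine ⟨W', a1, a2, a3, H28N.apOfModel_two_of_c4 a3 a4 a5, ?_, a6, a9⟩
  refine ZK.irr_five_of_trace W' a1 hr a8 ?_ hr5
  rw [ap_zero W' hr hr3 hr2 a7 a8]
  exact dvd_zero _

end Fermat.Agent.H07.P2
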